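import Mathlib
import Fermat.Prelude.Def_FLTPrelim_FreyPackage

/-!
# DivPoly (item 64), piece (D): from a "torsion polynomial" to the torsion statements

Abstract form: if `S ∈ K[X]` has positive degree and every affine point whose `x`-coordinate is a
root of `S` is killed by `n`, then `E[n] ≠ 0` (over an algebraically closed field).
Also: basic facts on the Frey curve (`Δ ≠ 0`, `freyCurve = freyCurveInt.map _`).
-/

set_option autoImplicit false

namespace Fermat.Agent.DivPoly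

open WeierstrassCurve WeierstrassCurve.Affine WeierstrassCurve.Affine.Point Polynomial

section Abstract

variable {K : Type*} [Field K] [DecidableEq K]

omit [DecidableEq K] in
/-- Over an algebraically closed field every `x₀` is the `x`-coordinate of a point of the curve. -/
theorem exists_equation_of_x [IsAlgClosed K] (W : Affine K) (x₀ : K) :
    ∃ y₀ : K, W.Equation x₀ y₀ := by
  obtain ⟨y₀, hy₀⟩ := IsAlgClosed.exists_root
    (X ^ 2 + C (W.a₁ * x₀ + W.a₃) * X - C (x₀ ^ 3 + W.a₂ * x₀ ^ 2 + W.a₄ * x₀ + W.a₆) : K[X])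
    (by
      have : (X ^ 2 + C (W.a₁ * x₀ + W.a₃) * X
          - C (x₀ ^ 3 + W.a₂ * x₀ ^ 2 + W.a₄ * x₀ + W.a₆) : K[X]).degree = 2 := by
        compute_degree!
      rw [this]
      norm_num)
  refine ⟨y₀, ?_⟩
  rw [Affine.equation_iff]
  simp only [IsRoot.def, eval_sub, eval_add, eval_pow, eval_X, eval_mul, eval_C] at hy₀
  linear_combination hy₀

/-- If the roots of `S` (of positive degree) are `x`-coordinates of `n`-torsion points, then there
is a nonzero `n`-torsion point. -/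
theorem exists_torsion_ne_zero_of_poly [IsAlgClosed K] (W : Affine K) (hΔ : W.Δ ≠ 0) (n : ℕ)
    (S : K[X]) (hdeg : 0 < S.natDegree)
    (hS : ∀ (x y : K) (h : W.Nonsingular x y), S.eval x = 0 → n • (Point.some x y h) = 0) :
    ∃ Q : W.Point, Q ≠ 0 ∧ n • Q = 0 := by
  obtain ⟨x₀, hx₀⟩ := IsAlgClosed.exists_root S
    (fun h => hdeg.ne' (natDegree_eq_zero_iff_degree_le_zero.mpr (le_of_eq h)))
  obtain ⟨y₀, hy₀⟩ := exists_equation_of_x W x₀
  have hns : W.Nonsingular x₀ y₀ := (W.equation_iff_nonsingular_of_Δ_ne_zero hΔ).mp hy₀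
  exact ⟨Point.some x₀ y₀ hns, Point.some_ne_zero hns, hS x₀ y₀ hns hx₀⟩

/-- Nontriviality of the `n`-torsion from a nonzero torsion point. -/
theorem nontrivial_torsionBy_of_exists (W : Affine K) (n : ℕ)
    (h : ∃ Q : W.Point, Q ≠ 0 ∧ n • Q = 0) :
    Nontrivial (Submodule.torsionBy ℤ W.Point n) := by
  obtain ⟨Q, hQ0, hQ⟩ := h
  have hmem : Q ∈ Submodule.torsionBy ℤ W.Point n := by
    rw [Submodule.mem_torsionBy_iff]
    exact_mod_cast hQ
  exact ⟨⟨⟨Q, hmem⟩, 0, fun h => hQ0 (congrArg Subtype.val h)⟩⟩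

end Abstract

section Frey

variable (P : FreyPackage)

theorem frey_four_dvd : (4 : ℤ) ∣ P.b ^ P.p - 1 - P.a ^ P.p := by
  have hp := P.hp5
  obtain ⟨k, hk⟩ := P.hp_odd
  have hb : (2 : ℤ) ∣ P.b := (ZMod.intCast_zmod_eq_zero_iff_dvd P.b 2).1 P.hb2
  have hb4 : (4 : ℤ) ∣ P.b ^ P.p := by
    obtain ⟨t, ht⟩ := hb
    have : P.b ^ P.p = 4 * (2 ^ (P.p - 2) * t ^ P.p) := by
      rw [ht, mul_pow]
      have : (2 : ℤ) ^ P.p = 4 * 2 ^ (P.p - 2) := by
        rw [show (4 : ℤ) = 2 ^ 2 by norm_num, ← pow_add]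
        congr 1
        omega
      rw [this]
      ring
    exact Dvd.intro _ this.symm
  have ha : ((P.a ^ P.p : ℤ) : ZMod 4) = 3 := by
    push_cast
    rw [P.ha4, hk, pow_succ, pow_mul]
    have : (3 : ZMod 4) ^ 2 = 1 := by decide
    rw [this, one_pow, one_mul]
  have h1 : (((P.b ^ P.p - 1 - P.a ^ P.p : ℤ)) : ZMod 4) = 0 := by
    have hb' : ((P.b ^ P.p : ℤ) : ZMod 4) = 0 :=
      (ZMod.intCast_zmod_eq_zero_iff_dvd _ 4).2 hb4
    rw [Int.cast_sub, Int.cast_sub, hb', ha]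
    decide
  exact (ZMod.intCast_zmod_eq_zero_iff_dvd _ 4).1 h1

theorem frey_sixteen_dvd : (16 : ℤ) ∣ -(P.a ^ P.p) * (P.b ^ P.p) := by
  have hp := P.hp5
  have hb : (2 : ℤ) ∣ P.b := (ZMod.intCast_zmod_eq_zero_iff_dvd P.b 2).1 P.hb2
  obtain ⟨t, ht⟩ := hb
  have : P.b ^ P.p = 16 * (2 ^ (P.p - 4) * t ^ P.p) := by
    rw [ht, mul_pow]
    have : (2 : ℤ) ^ P.p = 16 * 2 ^ (P.p - 4) := by
      rw [show (16 : ℤ) = 2 ^ 4 by norm_num, ← pow_add]
      congr 1
      omega
    rw [this]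
    ring
  rw [this]
  exact Dvd.intro (-(P.a ^ P.p) * (2 ^ (P.p - 4) * t ^ P.p)) (by ring)

/-- The rational Frey curve is the base change of the integral one. -/
theorem freyCurve_eq_map : P.freyCurve = P.freyCurveInt.map (Int.castRingHom ℚ) := by
  ext
  · simp [FreyPackage.freyCurve, FreyPackage.freyCurveInt]
  · simp only [FreyPackage.freyCurve, FreyPackage.freyCurveInt, WeierstrassCurve.map_a₂,
      eq_intCast]
    rw [Int.cast_div (frey_four_dvd P) (by norm_num)]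
    push_cast
    ring
  · simp [FreyPackage.freyCurve, FreyPackage.freyCurveInt]
  · simp only [FreyPackage.freyCurve, FreyPackage.freyCurveInt, WeierstrassCurve.map_a₄,
      eq_intCast]
    rw [Int.cast_div (frey_sixteen_dvd P) (by norm_num)]
    push_cast
    ring
  · simp [FreyPackage.freyCurve, FreyPackage.freyCurveInt]

/-- The discriminant of the Frey curve. -/
theorem freyCurve_Δ : P.freyCurve.Δ = ((P.a : ℚ) ^ P.p * P.b ^ P.p * P.c ^ P.p) ^ 2 / 256 := by
  have hc : (P.c : ℚ) ^ P.p = P.a ^ P.p + P.b ^ P.p := by exact_mod_cast P.hFLT.symm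
  rw [hc]
  simp only [WeierstrassCurve.Δ, WeierstrassCurve.b₂, WeierstrassCurve.b₄, WeierstrassCurve.b₆,
    WeierstrassCurve.b₈, FreyPackage.freyCurve]
  ring

theorem freyCurve_Δ_ne_zero : P.freyCurve.Δ ≠ 0 := by
  rw [freyCurve_Δ]
  have ha : (P.a : ℚ) ≠ 0 := by exact_mod_cast P.ha0
  have hb : (P.b : ℚ) ≠ 0 := by exact_mod_cast P.hb0
  have hc : (P.c : ℚ) ≠ 0 := by exact_mod_cast P.hc0
  positivity

end Frey

end Fermat.Agent.DivPoly
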